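import Mathlib

/-!
# S43 / I1 / Abs : two abstract duality lemmas (Mathlib only)

* `exists_idem_pow`        : in a finite monoid every element has an idempotent power `t ^ n`, `n > 0`.
* `nondeg_genEigen`  (P1)  : `V` finite, `e : V →+ V →+ C`, `TT` a set of pairwise commuting `e`-selfadjoint
  endomorphisms, `x` in the generalized kernel `V0 = {x | ∀ t ∈ TT, ∃ n, (t ^ n) x = 0}`.  Every `y` can be replaced by
  `y' ∈ V0` with `e x y' = e x y`.  (So a nondegenerate pairing stays nondegenerate on `V0`.)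
* `mem_range_of_perp_ker` (P2) : `V` finite, `e : V →+ V →+ Additive Mˣ` right-nondegenerate, `T`, `T'` adjoint.
  If `e c z = 0` for all `z ∈ ker T'` then `c ∈ range T`.
* `mem_range_of_perp_ker_sub` : the same on a subgroup `V0 ≤ V` stable under `T`, `T'`.
-/

set_option autoImplicit false

namespace Fermat.Agent.S43.I1

/-- in a finite monoid every element has an idempotent positive power. -/
theorem exists_idem_pow {E : Type*} [Monoid E] [Finite E] (t : E) :
    ∃ n : ℕ, 0 < n ∧ t ^ n * t ^ n = t ^ n := by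
  obtain ⟨i, j, hij, h⟩ := Finite.exists_ne_map_eq_of_infinite (fun k : ℕ => t ^ k)
  have key : ∀ i j : ℕ, i < j → t ^ i = t ^ j → ∃ n : ℕ, 0 < n ∧ t ^ n * t ^ n = t ^ n := by
    intro i j hlt h
    obtain ⟨d, rfl⟩ : ∃ d, j = i + d := ⟨j - i, by omega⟩
    have hd : 0 < d := by omega
    -- period
    have hper : ∀ k, i ≤ k → t ^ (k + d) = t ^ k := by
      intro k hk
      obtain ⟨r, rfl⟩ : ∃ r, k = i + r := ⟨k - i, by omega⟩
      calc t ^ (i + r + d) = t ^ (i + d) * t ^ r := by rw [← pow_add]; congr 1; omega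
        _ = t ^ i * t ^ r := by rw [← h]
        _ = t ^ (i + r) := by rw [← pow_add]
    have hper' : ∀ c k, i ≤ k → t ^ (k + d * c) = t ^ k := by
      intro c
      induction c with
      | zero => intro k _; simp
      | succ c ih =>
        intro k hk
        have : k + d * (c + 1) = (k + d * c) + d := by ring
        rw [this, hper _ (by omega), ih k hk]
    refine ⟨d * (i + 1), Nat.mul_pos hd (Nat.succ_pos i), ?_⟩
    rw [← pow_add]
    refine hper' (i + 1) _ ?_
    calc i ≤ 1 * (i + 1) := by omega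
      _ ≤ d * (i + 1) := Nat.mul_le_mul_right _ hd
  rcases lt_or_gt_of_ne hij with hlt | hlt
  · exact key i j hlt h
  · exact key j i hlt h.symm

section P1

variable {V C : Type*} [AddCommGroup V] [AddCommGroup C]

theorem end_mul_apply (s t : AddMonoid.End V) (x : V) : (s * t) x = s (t x) := rfl

theorem adj_pow (e : V →+ V →+ C) (t : AddMonoid.End V) (hadj : ∀ x y, e (t x) y = e x (t y))
    (n : ℕ) (x y : V) : e ((t ^ n) x) y = e x ((t ^ n) y) := by
  induction n generalizing x y with
  | zero => simp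
  | succ n ih =>
    rw [pow_succ, end_mul_apply, ih, hadj, ← end_mul_apply, ← pow_succ',
      ← pow_succ]

/-- **(P1)** projection of the second variable into the generalized kernel. -/
theorem nondeg_genEigen [Finite V] (e : V →+ V →+ C) (TT : Set (AddMonoid.End V))
    (hcomm : ∀ s ∈ TT, ∀ t ∈ TT, Commute s t)
    (hadj : ∀ t ∈ TT, ∀ x y, e (t x) y = e x (t y))
    {x : V} (hx : ∀ t ∈ TT, ∃ n : ℕ, (t ^ n) x = 0) (y : V) :
    ∃ y' : V, (∀ t ∈ TT, ∃ n : ℕ, (t ^ n) y' = 0) ∧ e x y' = e x y := by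
  classical
  have : Finite (AddMonoid.End V) := DFunLike.finite (V →+ V)
  have hfin : TT.Finite := Set.toFinite TT
  have key : ∀ F : Finset (AddMonoid.End V), (∀ t ∈ F, t ∈ TT) →
      ∃ y' : V, (∀ t ∈ F, ∃ n : ℕ, (t ^ n) y' = 0) ∧ e x y' = e x y := by
    intro F
    induction F using Finset.induction_on with
    | empty => intro _; exact ⟨y, by simp, rfl⟩
    | insert t F _ ih =>
      intro hF
      obtain ⟨y1, h1, h2⟩ := ih (fun s hs => hF s (Finset.mem_insert_of_mem hs))
      have htT : t ∈ TT := hF t (Finset.mem_insert_self t F)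
      obtain ⟨n, hn, hidem⟩ := exists_idem_pow t
      refine ⟨y1 - (t ^ n) y1, ?_, ?_⟩
      · intro s hs
        rcases Finset.mem_insert.mp hs with rfl | hs
        · refine ⟨n, ?_⟩
          rw [map_sub, ← end_mul_apply, hidem, sub_self]
        · obtain ⟨k, hk⟩ := h1 s hs
          refine ⟨k, ?_⟩
          have hc : Commute (s ^ k) (t ^ n) :=
            (hcomm s (hF s (Finset.mem_insert_of_mem hs)) t htT).pow_pow k n
          rw [map_sub, hk, ← end_mul_apply, hc.eq, end_mul_apply, hk, map_zero,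
            sub_zero]
      · obtain ⟨k, hk⟩ := hx t htT
        -- `(t ^ n) x = 0`
        have hidem' : ∀ r : ℕ, 0 < r → (t ^ n) ^ r = t ^ n := by
          intro r hr
          induction r with
          | zero => omega
          | succ r ih =>
            rcases Nat.eq_zero_or_pos r with rfl | hr'
            · simp
            · rw [pow_succ, ih hr', hidem]
        have hx0 : (t ^ n) x = 0 := by
          have h3 : (t ^ n) ^ (k + 1) = t ^ n := hidem' (k + 1) (Nat.succ_pos k)
          rw [← h3, ← pow_mul]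
          have : n * (k + 1) = (n * (k + 1) - k) + k := by
            have : k ≤ n * (k + 1) := by nlinarith
            omega
          rw [this, pow_add, end_mul_apply, hk, map_zero]
        rw [map_sub, ← adj_pow e t (hadj t htT), hx0, map_zero, AddMonoidHom.zero_apply, sub_zero, h2]
  obtain ⟨y', h1, h2⟩ := key hfin.toFinset (fun t ht => hfin.mem_toFinset.mp ht)
  exact ⟨y', fun t ht => h1 t (hfin.mem_toFinset.mpr ht), h2⟩

end P1

section P2

variable {V M : Type*} [AddCommGroup V] [Finite V] [Field M] [IsAlgClosed M] [CharZero M]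

/-- every character of `V` is `e (·) z` if `e` is right-nondegenerate. -/
theorem exists_repr_char (e : V →+ V →+ Additive Mˣ) (hR : ∀ y, (∀ x, e x y = 0) → y = 0)
    (φ : Multiplicative V →* Mˣ) : ∃ z : V, ∀ x : V, φ (Multiplicative.ofAdd x) = (e x z).toMul := by
  have : NeZero (Monoid.exponent (Multiplicative V)) := ⟨Monoid.exponent_ne_zero_of_finite⟩
  have : NeZero ((Monoid.exponent (Multiplicative V) : ℕ) : M) := NeZero.charZero
  obtain ⟨E⟩ := CommGroup.monoidHom_mulEquiv_of_hasEnoughRootsOfUnity (Multiplicative V) M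
  let Ψ : V → (Multiplicative V →* Mˣ) := fun z =>
    { toFun := fun g => (e g.toAdd z).toMul
      map_one' := by simp
      map_mul' := fun g h => by simp }
  have hinj : Function.Injective Ψ := by
    intro z z' h
    rw [← sub_eq_zero]
    refine hR _ fun x => ?_
    have h1 := congrArg (fun f : Multiplicative V →* Mˣ => f (Multiplicative.ofAdd x)) h
    have h2 : (e x z).toMul = (e x z').toMul := h1
    rw [map_sub, sub_eq_zero]
    exact Additive.toMul.injective h2
  have hinj2 : Function.Injective (fun z : V => Multiplicative.toAdd (E (Ψ z))) :=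
    Multiplicative.toAdd.injective.comp (E.injective.comp hinj)
  have hsurj := Finite.injective_iff_surjective.mp hinj2
  obtain ⟨z, hz⟩ := hsurj (Multiplicative.toAdd (E φ))
  have hz' : Ψ z = φ := E.injective (Multiplicative.toAdd.injective hz)
  exact ⟨z, fun x => by rw [← hz']; rfl⟩

/-- **(P2)** `(ker T')^⊥ ⊆ range T`. -/
theorem mem_range_of_perp_ker (e : V →+ V →+ Additive Mˣ) (hR : ∀ y, (∀ x, e x y = 0) → y = 0)
    (T T' : V →+ V) (hadj : ∀ x y, e (T x) y = e x (T' y))
    {c : V} (hc : ∀ z, T' z = 0 → e c z = 0) : ∃ x, T x = c := by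
  have : NeZero (Monoid.exponent (Multiplicative V)) := ⟨Monoid.exponent_ne_zero_of_finite⟩
  have : NeZero ((Monoid.exponent (Multiplicative V) : ℕ) : M) := NeZero.charZero
  let H : Subgroup (Multiplicative V) := AddSubgroup.toSubgroup T.range
  have hmem : Multiplicative.ofAdd c ∈ H := by
    rw [← CommGroup.forall_monoidHom_apply_eq_one_iff (M := M) H]
    intro φ hφ
    obtain ⟨z, hz⟩ := exists_repr_char e hR φ
    have hTz : T' z = 0 := by
      refine hR _ fun x => ?_
      rw [← hadj]
      have h1 := hφ (Multiplicative.ofAdd (T x)) ⟨x, rfl⟩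
      rw [hz] at h1
      exact Additive.toMul.injective h1
    rw [hz, hc z hTz]
    rfl
  obtain ⟨x, hx⟩ := hmem
  exact ⟨x, hx⟩

/-- **(P2), subgroup form.** -/
theorem mem_range_of_perp_ker_sub (e : V →+ V →+ Additive Mˣ) (V0 : AddSubgroup V)
    (hR : ∀ y ∈ V0, (∀ x ∈ V0, e x y = 0) → y = 0)
    (T T' : V →+ V) (hT : ∀ x ∈ V0, T x ∈ V0) (hT' : ∀ x ∈ V0, T' x ∈ V0)
    (hadj : ∀ x y, e (T x) y = e x (T' y))
    {c : V} (hc0 : c ∈ V0) (hc : ∀ z ∈ V0, T' z = 0 → e c z = 0) : ∃ x ∈ V0, T x = c := by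
  let e0 : V0 →+ V0 →+ Additive Mˣ := ((e.comp V0.subtype).flip.comp V0.subtype).flip
  have he0 : ∀ x y : V0, e0 x y = e (x : V) (y : V) := fun _ _ => rfl
  let T0 : V0 →+ V0 := (T.comp V0.subtype).codRestrict V0 (fun x => hT x x.2)
  let T0' : V0 →+ V0 := (T'.comp V0.subtype).codRestrict V0 (fun x => hT' x x.2)
  obtain ⟨x, hx⟩ := mem_range_of_perp_ker e0
    (fun y hy => Subtype.ext (hR y y.2 fun x hx => hy ⟨x, hx⟩)) T0 T0'
    (fun x y => hadj x y) (c := ⟨c, hc0⟩)
    (fun z hz => hc z z.2 (congrArg Subtype.val hz))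
  exact ⟨x, x.2, congrArg Subtype.val hx⟩

/-- right-nondegeneracy passes to the generalized kernel of a commuting selfadjoint family. -/
theorem genEigen_right_nondeg (e : V →+ V →+ Additive Mˣ) (TT : Set (AddMonoid.End V))
    (hcomm : ∀ s ∈ TT, ∀ t ∈ TT, Commute s t)
    (hadj : ∀ t ∈ TT, ∀ x y, e (t x) y = e x (t y))
    (hRV : ∀ y, (∀ x, e x y = 0) → y = 0)
    {y : V} (hy : ∀ t ∈ TT, ∃ n : ℕ, (t ^ n) y = 0)
    (h : ∀ x : V, (∀ t ∈ TT, ∃ n : ℕ, (t ^ n) x = 0) → e x y = 0) : y = 0 := by
  refine hRV y fun x => ?_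
  obtain ⟨x', hx', hxx⟩ := nondeg_genEigen e.flip TT hcomm
    (fun t ht a b => (hadj t ht b a).symm) hy x
  have h1 : e x' y = e x y := hxx
  rw [← h1]
  exact h x' hx'

end P2

end Fermat.Agent.S43.I1
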